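/-
S52 (3–5 switch), Glue block (helper2), brick (G1): the GENERATOR form of weak Chebotarev over `G_ℚ`.

`S31lib/WeakChebGQ.exists_frobenius_pow_eq` gives `ℓ ∉ S₀`, `A ∣ ℓ`, a Frobenius `φ` at `A` and `j`
with `g = φ ^ j` on `M`.  Its proof actually knows that the Frobenius GENERATES the cyclic group
`⟨g|_M⟩`, so also `φ = g ^ i` on `M`.  We re-run that proof keeping this information.  For an
involution `g` (e.g. complex conjugation) with `g|_M ≠ 1` this gives `φ = g` on `M`.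
-/
import Fermat.Agent.S31lib.WeakChebGQ

set_option autoImplicit false
set_option linter.style.haveILetI false
set_option linter.unusedSectionVars false

open NumberField IsDedekindDomain Ideal

noncomputable section

namespace Fermat.Agent.S52lib.Glue

open Fermat.Agent.ExtVan Fermat.Agent.ExtVan.DegOne Fermat.Agent.S29lib.X
  Fermat.Agent.ExtVan.InertiaLift Fermat.Agent.S31lib Fermat.Agent.Helper5

section Main

variable (M : IntermediateField ℚ Qb) [FiniteDimensional ℚ M] [IsGalois ℚ M]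

/-- **Weak Chebotarev, generator form.**  For a finite Galois `M ≤ ℚ̄`, `g : G_ℚ` and a finite set
`S₀` of primes there are a prime `ℓ ∉ S₀`, a valuation subring `A` of `ℚ̄` over `ℓ`, a Frobenius
element `φ` at `A` such that on `M` each of `g`, `φ` is a power of the other. -/
theorem exists_frobenius_generates (g : GQ) (S₀ : Finset ℕ) :
    ∃ (ℓ : ℕ) (A : ValuationSubring Qb) (φ : GQ) (i j : ℕ),
      ℓ.Prime ∧ ℓ ∉ S₀ ∧ A.LiesOverPrime ℓ ∧ A.IsFrobeniusAt φ ℓ ∧
        (∀ x ∈ M, g x = (φ ^ j) x) ∧ (∀ x ∈ M, φ x = (g ^ i) x) := by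
  classical
  -- the cyclic subgroup generated by the restriction of `g`, and its fixed field
  set σ : M ≃ₐ[ℚ] M := AlgEquiv.restrictNormalHom M g with hσ
  set C : Subgroup (M ≃ₐ[ℚ] M) := Subgroup.zpowers σ with hC
  set K : IntermediateField ℚ M := IntermediateField.fixedField C with hK
  haveI : IsCyclic Gal(M/K) :=
    (IntermediateField.subgroupEquivAlgEquiv C).isCyclic.mp inferInstance
  haveI : IsAbelianGalois K M := IsAbelianGalois.of_isCyclic K M
  -- the bad primes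
  have hdisc : NumberField.discr M ≠ 0 := NumberField.discr_ne_zero M
  set T : Finset ℕ := S₀ ∪ (NumberField.discr M).natAbs.primeFactors with hT
  set S : Finset (HeightOneSpectrum (𝓞 K)) := (finite_setOf_primeBelow_mem (F := K) T).toFinset
    with hS
  have hnotdvd : ∀ q : HeightOneSpectrum (𝓞 K), q ∉ S →
      ¬ ((DegOne.primeBelow q : ℕ) : ℤ) ∣ NumberField.discr M := by
    intro q hq hdvd
    apply hq
    rw [hS, Set.Finite.mem_toFinset, Set.mem_ofPred_eq, hT, Finset.mem_union]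
    right
    rw [Nat.mem_primeFactors]
    refine ⟨DegOne.primeBelow_prime q, ?_, by simpa using hdisc⟩
    exact Int.natCast_dvd.mp hdvd
  have hmemQ : ∀ (q : HeightOneSpectrum (𝓞 K)) (Q : Ideal (𝓞 M)), Q.LiesOver q.asIdeal →
      ((DegOne.primeBelow q : ℕ) : 𝓞 M) ∈ Q := by
    intro q Q hQq
    have h1 : ((DegOne.primeBelow q : ℕ) : 𝓞 K) ∈ q.asIdeal := by
      have h := (DegOne.liesOver_primeBelow q).over
      have h2 : ((DegOne.primeBelow q : ℕ) : ℤ) ∈ Ideal.span {((DegOne.primeBelow q : ℕ) : ℤ)} :=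
        Ideal.subset_span rfl
      rw [h] at h2
      simpa using h2
    have h3 := hQq.over
    rw [h3] at h1
    simpa using h1
  have hSram : ∀ q ∉ S, ∀ Q : Ideal (𝓞 M), Q.IsPrime → Q.LiesOver q.asIdeal →
      Q.ramificationIdx (𝓞 K) = 1 := by
    intro q hq Q hQ hQq
    exact ramificationIdx_eq_one_of_not_dvd_discr (DegOne.primeBelow_prime q) (hnotdvd q hq) Q
      (hmemQ q Q hQq)
  -- the weak Chebotarev prime
  obtain ⟨q, hqS, hqp, hgen⟩ := exists_degOne_prime_frob_generates (K := K) (N := M) S hSram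
  set ℓ : ℕ := absNorm q.asIdeal with hℓ
  have hℓq : DegOne.primeBelow q = ℓ := by
    have h1 := DegOne.primeBelow_pow_inertiaDeg q
    have hp := DegOne.primeBelow_prime q
    rw [← hℓ] at h1
    have h2 : DegOne.primeBelow q ∣ ℓ := by
      rw [← h1]
      exact dvd_pow_self _ (Ideal.inertiaDeg_pos q.asIdeal ℤ).ne'
    exact (Nat.prime_dvd_prime_iff_eq hp hqp).mp h2
  have hℓS₀ : ℓ ∉ S₀ := by
    intro h
    apply hqS
    rw [hS, Set.Finite.mem_toFinset, Set.mem_ofPred_eq, hℓq, hT]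
    exact Finset.mem_union_left _ h
  have hℓd : ¬ (ℓ : ℤ) ∣ NumberField.discr M := by
    have := hnotdvd q hqS
    rwa [hℓq] at this
  -- a prime of `𝓞 M` over `q`, a prime of `ℤ̄` over it, a Frobenius
  obtain ⟨⟨Q, hQ, hQq⟩⟩ := Ideal.nonempty_primesOver (S := 𝓞 M) q.asIdeal
  haveI := hQ
  haveI := hQq
  have hℓQ : (ℓ : 𝓞 M) ∈ Q := by
    have := hmemQ q Q hQq
    rwa [hℓq] at this
  have hQ0 : Q ≠ ⊥ := Ideal.ne_bot_of_liesOver_of_ne_bot q.ne_bot Q
  obtain ⟨𝔓, h𝔓max, h𝔓ℓ, h𝔓Q⟩ := exists_maximal_over M Q hQ0 hqp hℓQ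
  haveI := h𝔓max
  haveI := h𝔓ℓ
  haveI : Fact ℓ.Prime := ⟨hqp⟩
  haveI : 𝔓.IsPrime := h𝔓max.isPrime
  obtain ⟨φ, hφ𝔓, hφ⟩ := exists_frob_stabilizer ℓ 𝔓
  set τ : M ≃ₐ[ℚ] M := AlgEquiv.restrictNormalHom M φ with hτ
  -- `τ` is a Frobenius at `Q`
  have hτfrob : ∀ x : 𝓞 M, τ • x - x ^ ℓ ∈ Q := by
    intro x
    rw [← h𝔓Q, Ideal.mem_comap]
    have h1 := hφ (toZbar M x)
    have h2 : toZbar M (τ • x - x ^ ℓ) = φ • toZbar M x - toZbar M x ^ ℓ := by
      apply Subtype.ext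
      rw [map_sub, map_pow]
      simp only [Subalgebra.coe_sub, Subalgebra.coe_pow, coe_toZbar]
      congr 1
      exact AlgEquiv.restrictNormal_commutes φ M ((x : 𝓞 M) : M)
    rw [h2]
    exact h1
  -- the Frobenius of `q` in `Gal(M/K)`, as an element of `Gal(M/ℚ)`
  set τ₀ : M ≃ₐ[ℚ] M := AlgEquiv.restrictScalars ℚ (frob K M q) with hτ₀
  have hτ₀frob : ∀ x : 𝓞 M, τ₀ • x - x ^ ℓ ∈ Q := by
    intro x
    have h1 := frob_smul_sub_pow_mem K M q Q x
    exact h1
  have hττ₀ : τ = τ₀ := eq_of_frobenius_congr M hqp hℓd Q hℓQ hτfrob hτ₀frob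
  -- `σ` is a power of `τ₀`
  have hσC : σ ∈ C := Subgroup.mem_zpowers σ
  set e := IntermediateField.subgroupEquivAlgEquiv C with he
  have hmem : e ⟨σ, hσC⟩ ∈ Subgroup.zpowers (frob K M q) := by rw [hgen]; trivial
  rw [← (isOfFinOrder_of_finite (frob K M q)).mem_powers_iff_mem_zpowers,
    Submonoid.mem_powers_iff] at hmem
  obtain ⟨j, hj⟩ := hmem
  -- `τ₀` is a power of `σ`
  have hmem' : ((e.symm (frob K M q) : C) : M ≃ₐ[ℚ] M) ∈ Subgroup.zpowers σ :=
    (e.symm (frob K M q)).2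
  rw [← (isOfFinOrder_of_finite σ).mem_powers_iff_mem_zpowers,
    Submonoid.mem_powers_iff] at hmem'
  obtain ⟨i, hi⟩ := hmem'
  have h4 : ∀ (n : ℕ) (y : M), ((frob K M q) ^ n) y = (τ₀ ^ n) y := by
    intro n
    induction n with
    | zero => intro y; rfl
    | succ n ih =>
      intro y
      rw [pow_succ, pow_succ, AlgEquiv.mul_apply, AlgEquiv.mul_apply, ih]
      rfl
  refine ⟨ℓ, Vloc 𝔓 ℓ, φ, i, j, hqp, hℓS₀, natCast_mem_nonunits_Vloc 𝔓 ℓ,
    isFrobeniusAt_Vloc 𝔓 ℓ hφ𝔓 hφ, ?_, ?_⟩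
  · intro x hx
    have h1 : g x = ((σ ⟨x, hx⟩ : M) : Qb) :=
      (AlgEquiv.restrictNormal_commutes g M ⟨x, hx⟩).symm
    have h2 : (φ ^ j) x = (((τ ^ j) ⟨x, hx⟩ : M) : Qb) := by
      rw [hτ, ← map_pow]
      exact (AlgEquiv.restrictNormal_commutes (φ ^ j) M ⟨x, hx⟩).symm
    rw [h1, h2, hττ₀]
    congr 1
    have h3 : (σ ⟨x, hx⟩ : M) = (e ⟨σ, hσC⟩) ⟨x, hx⟩ := rfl
    rw [h3, ← hj]
    exact h4 j ⟨x, hx⟩
  · intro x hx
    have h1 : φ x = ((τ ⟨x, hx⟩ : M) : Qb) :=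
      (AlgEquiv.restrictNormal_commutes φ M ⟨x, hx⟩).symm
    have h2 : (g ^ i) x = (((σ ^ i) ⟨x, hx⟩ : M) : Qb) := by
      rw [hσ, ← map_pow]
      exact (AlgEquiv.restrictNormal_commutes (g ^ i) M ⟨x, hx⟩).symm
    rw [h1, h2, hττ₀, hi]
    congr 1

/-- **Weak Chebotarev for an involution.**  If `g` acts on `M` as an involution (for instance `g` is
a complex conjugation), then the Frobenius `φ` can be chosen with `φ = g` on `M`. -/
theorem exists_frobenius_eq_of_involutive (g : GQ) (hg : ∀ x ∈ M, g (g x) = x) (S₀ : Finset ℕ) :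
    ∃ (ℓ : ℕ) (A : ValuationSubring Qb) (φ : GQ),
      ℓ.Prime ∧ ℓ ∉ S₀ ∧ A.LiesOverPrime ℓ ∧ A.IsFrobeniusAt φ ℓ ∧ ∀ x ∈ M, φ x = g x := by
  obtain ⟨ℓ, A, φ, i, j, hℓ, hℓS, hA, hφ, hgφ, hφg⟩ := exists_frobenius_generates M g S₀
  refine ⟨ℓ, A, φ, hℓ, hℓS, hA, hφ, ?_⟩
  -- `g` maps `M` to `M`
  have hgM : ∀ x ∈ M, g x ∈ M := by
    intro x hx
    have h : ((AlgEquiv.restrictNormal g M ⟨x, hx⟩ : M) : Qb) = g x :=
      AlgEquiv.restrictNormal_commutes g M ⟨x, hx⟩
    rw [← h]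
    exact (AlgEquiv.restrictNormal g M ⟨x, hx⟩).2
  -- powers of `g` on `M`
  have hpow : ∀ (n : ℕ), ∀ x ∈ M, (g ^ n) x = if Even n then x else g x := by
    intro n
    induction n with
    | zero => intro x _; simp
    | succ n ih =>
      intro x hx
      rw [pow_succ, AlgEquiv.mul_apply, ih (g x) (hgM x hx)]
      by_cases hn : Even n
      · have : ¬ Even (n + 1) := by simpa [Nat.even_add_one] using hn
        simp [hn, this]
      · have : Even (n + 1) := by simpa [Nat.even_add_one] using hn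
        simp [hn, this, hg x hx]
  by_cases hi : Even i
  · -- then `φ = 1` on `M`, so `g = φ ^ j = 1` on `M` as well
    have hφ1 : ∀ x ∈ M, φ x = x := by
      intro x hx
      rw [hφg x hx, hpow i x hx, if_pos hi]
    have hφpow : ∀ (n : ℕ), ∀ x ∈ M, (φ ^ n) x = x := by
      intro n
      induction n with
      | zero => intro x _; simp
      | succ n ih =>
        intro x hx
        rw [pow_succ, AlgEquiv.mul_apply, hφ1 x hx, ih x hx]
    intro x hx
    rw [hφ1 x hx, hgφ x hx, hφpow j x hx]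
  · intro x hx
    rw [hφg x hx, hpow i x hx, if_neg hi]

end Main

section General

/-- generator form of weak Chebotarev for an arbitrary finite-dimensional `L ≤ ℚ̄` (pass to the normal
closure). -/
theorem exists_frobenius_generates_of_finite (L : IntermediateField ℚ Qb) [FiniteDimensional ℚ L]
    (g : GQ) (S₀ : Finset ℕ) :
    ∃ (ℓ : ℕ) (A : ValuationSubring Qb) (φ : GQ) (i j : ℕ),
      ℓ.Prime ∧ ℓ ∉ S₀ ∧ A.LiesOverPrime ℓ ∧ A.IsFrobeniusAt φ ℓ ∧
        (∀ x ∈ L, g x = (φ ^ j) x) ∧ (∀ x ∈ L, φ x = (g ^ i) x) := by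
  haveI : FiniteDimensional ℚ (IntermediateField.normalClosure ℚ L Qb) :=
    normalClosure.is_finiteDimensional ℚ L Qb
  haveI : Normal ℚ (IntermediateField.normalClosure ℚ L Qb) :=
    normalClosure.normal ℚ L Qb
  haveI : IsGalois ℚ (IntermediateField.normalClosure ℚ L Qb) := ⟨⟩
  obtain ⟨ℓ, A, φ, i, j, h1, h2, h3, h4, h5, h6⟩ :=
    exists_frobenius_generates (IntermediateField.normalClosure ℚ L Qb) g S₀
  exact ⟨ℓ, A, φ, i, j, h1, h2, h3, h4,
    fun x hx => h5 x (IntermediateField.le_normalClosure L hx),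
    fun x hx => h6 x (IntermediateField.le_normalClosure L hx)⟩

/-- **Weak Chebotarev for an element of order two of `G_ℚ`** (complex conjugation): for any
finite-dimensional `L ≤ ℚ̄` and finite `S₀` there is a Frobenius element `φ` at a prime `ℓ ∉ S₀`
which agrees with `g` on `L`. -/
theorem exists_frobenius_eq_of_mul_self (L : IntermediateField ℚ Qb) [FiniteDimensional ℚ L]
    (g : GQ) (hg : g * g = 1) (S₀ : Finset ℕ) :
    ∃ (ℓ : ℕ) (A : ValuationSubring Qb) (φ : GQ),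
      ℓ.Prime ∧ ℓ ∉ S₀ ∧ A.LiesOverPrime ℓ ∧ A.IsFrobeniusAt φ ℓ ∧ ∀ x ∈ L, φ x = g x := by
  haveI : FiniteDimensional ℚ (IntermediateField.normalClosure ℚ L Qb) :=
    normalClosure.is_finiteDimensional ℚ L Qb
  haveI : Normal ℚ (IntermediateField.normalClosure ℚ L Qb) :=
    normalClosure.normal ℚ L Qb
  haveI : IsGalois ℚ (IntermediateField.normalClosure ℚ L Qb) := ⟨⟩
  have hgg : ∀ x ∈ IntermediateField.normalClosure ℚ L Qb, g (g x) = x := by
    intro x _
    have := congrArg (fun f : GQ => f x) hg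
    simpa [AlgEquiv.mul_apply] using this
  obtain ⟨ℓ, A, φ, h1, h2, h3, h4, h5⟩ :=
    exists_frobenius_eq_of_involutive (IntermediateField.normalClosure ℚ L Qb) g hgg S₀
  exact ⟨ℓ, A, φ, h1, h2, h3, h4, fun x hx => h5 x (IntermediateField.le_normalClosure L hx)⟩

end General

end Fermat.Agent.S52lib.Glue
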