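/-
S52 (3–5 switch), helper2: **the `T`-bridge from the `H`-bridge and the `f`-bridge**, without
expanding a form of degree 330.

With `e' = t • e + 3 z • w(e)`, `w(e) = (f_v(e), -f_u(e))`, `h = 9 H(e)`, `s = 27 T(e)`:
  (BH)  `HpH h s t z = 9 H(e')`,   (Bf)  `f(e) · dlH h s t z = f(e')`
imply (BT) `TpH h s t z = 27 T(e')`.  Proof: by lead's `syzygyH` and Klein's syzygy, both sides of (BT)
have the same square in the polynomial ring `ℤ[u, v, t, z]`, a domain, so they agree up to sign; the
sign is `+` at `(u, v, t, z) = (1, 0, 1, 0)`.  The identity is then mapped to every commutative ring.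
-/
import Fermat.Agent.S52lib.FamCurve
import Fermat.Agent.S52lib.Klein.Forms

set_option autoImplicit false

noncomputable section

namespace Fermat.Agent.S52lib.Glue

open Fermat.Agent.S52lib.Fam Fermat.Agent.S52lib.Klein MvPolynomial

/-- the polynomial ring `ℤ[u, v, t, z]`. -/
abbrev P4 : Type := MvPolynomial (Fin 4) ℤ

/-- **`T`-bridge from the `H`- and `f`-bridges** (all three in the polynomial ring). -/
theorem TpH_bridge_P4
    (hH : ∀ u v t z : P4, HpH (9 * kH u v) (27 * kT u v) t z =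
      9 * kH (t * u + 3 * z * kfv u v) (t * v - 3 * z * kfu u v))
    (hf : ∀ u v t z : P4, kf u v * dlH (9 * kH u v) (27 * kT u v) t z =
      kf (t * u + 3 * z * kfv u v) (t * v - 3 * z * kfu u v)) :
    TpH (9 * kH (X 0 : P4) (X 1)) (27 * kT (X 0 : P4) (X 1)) (X 2) (X 3) =
      27 * kT ((X 2 : P4) * X 0 + 3 * X 3 * kfv (X 0 : P4) (X 1))
        ((X 2 : P4) * X 1 - 3 * X 3 * kfu (X 0 : P4) (X 1)) := by
  set u : P4 := X 0 with hu
  set v : P4 := X 1 with hv
  set t : P4 := X 2 with ht
  set z : P4 := X 3 with hz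
  set u' : P4 := t * u + 3 * z * kfv u v with hu'
  set v' : P4 := t * v - 3 * z * kfu u v with hv'
  have h1 := syzygyH (9 * kH u v) (27 * kT u v) t z
  have h2 := klein u v
  have h3 := klein u' v'
  have h4 := hH u v t z
  have h5 := hf u v t z
  -- the squares agree
  have hsq : TpH (9 * kH u v) (27 * kT u v) t z ^ 2 = (27 * kT u' v') ^ 2 := by
    rw [h4] at h1
    have h6 : (27 * kT u v) ^ 2 + (9 * kH u v) ^ 3 = 729 * 1728 * kf u v ^ 5 := by
      linear_combination 729 * h2
    rw [h6] at h1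
    have h7 : kf u v ^ 5 * dlH (9 * kH u v) (27 * kT u v) t z ^ 5 = kf u' v' ^ 5 := by
      rw [← mul_pow, h5]
    linear_combination h1 + 729 * 1728 * h7 - 729 * h3
  rcases sq_eq_sq_iff_eq_or_eq_neg.mp hsq with h | h
  · exact h
  · -- the sign: evaluate at `(1, 0, 1, 0)`
    exfalso
    set ev : P4 →+* ℤ := MvPolynomial.eval ![1, 0, 1, 0] with hev
    have e0 : ev u = 1 := by simp [hev, hu]
    have e1 : ev v = 0 := by simp [hev, hv]
    have e2 : ev t = 1 := by simp [hev, ht]
    have e3 : ev z = 0 := by simp [hev, hz]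
    have h8 := congrArg ev h
    rw [map_TpH] at h8
    simp only [hu', hv', map_neg, map_add, map_sub, map_mul, map_ofNat, map_kT, map_kH, map_kfv,
      map_kfu, e0, e1, e2, e3] at h8
    rw [TpH_one_zero] at h8
    norm_num [kT, kfu, kfv] at h8

/-- **the `T`-bridge over any commutative ring**, from the `H`- and `f`-bridges over `ℤ[u,v,t,z]`. -/
theorem TpH_bridge
    (hH : ∀ u v t z : P4, HpH (9 * kH u v) (27 * kT u v) t z =
      9 * kH (t * u + 3 * z * kfv u v) (t * v - 3 * z * kfu u v))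
    (hf : ∀ u v t z : P4, kf u v * dlH (9 * kH u v) (27 * kT u v) t z =
      kf (t * u + 3 * z * kfv u v) (t * v - 3 * z * kfu u v))
    {R : Type*} [CommRing R] (u v t z : R) :
    TpH (9 * kH u v) (27 * kT u v) t z =
      27 * kT (t * u + 3 * z * kfv u v) (t * v - 3 * z * kfu u v) := by
  have h := TpH_bridge_P4 hH hf
  set φ : P4 →+* R := MvPolynomial.eval₂Hom (Int.castRingHom R) ![u, v, t, z] with hφ
  have e0 : φ (X 0) = u := by simp [hφ]
  have e1 : φ (X 1) = v := by simp [hφ]
  have e2 : φ (X 2) = t := by simp [hφ]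
  have e3 : φ (X 3) = z := by simp [hφ]
  have h' := congrArg φ h
  rw [map_TpH] at h'
  simp only [map_add, map_sub, map_mul, map_ofNat, map_kfv, map_kfu, map_kH, map_kT,
    e0, e1, e2, e3] at h'
  exact h'

/-! ### the chart `t = 1` (three variables) -/

/-- the polynomial ring `ℤ[u, v, z]`. -/
abbrev P3 : Type := MvPolynomial (Fin 3) ℤ

/-- **`T`-bridge in the chart `t = 1` from the `H`- and `f`-bridges** (in the polynomial ring). -/
theorem TpH_bridge_one_P3
    (hH : ∀ u v z : P3, HpH (9 * kH u v) (27 * kT u v) 1 z =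
      9 * kH (u + 3 * z * kfv u v) (v - 3 * z * kfu u v))
    (hf : ∀ u v z : P3, kf u v * dlH (9 * kH u v) (27 * kT u v) 1 z =
      kf (u + 3 * z * kfv u v) (v - 3 * z * kfu u v)) :
    TpH (9 * kH (X 0 : P3) (X 1)) (27 * kT (X 0 : P3) (X 1)) 1 (X 2) =
      27 * kT ((X 0 : P3) + 3 * X 2 * kfv (X 0 : P3) (X 1))
        ((X 1 : P3) - 3 * X 2 * kfu (X 0 : P3) (X 1)) := by
  set u : P3 := X 0 with hu
  set v : P3 := X 1 with hv
  set z : P3 := X 2 with hz
  set u' : P3 := u + 3 * z * kfv u v with hu'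
  set v' : P3 := v - 3 * z * kfu u v with hv'
  have h1 := syzygyH (9 * kH u v) (27 * kT u v) 1 z
  have h2 := klein u v
  have h3 := klein u' v'
  have h4 := hH u v z
  have h5 := hf u v z
  have hsq : TpH (9 * kH u v) (27 * kT u v) 1 z ^ 2 = (27 * kT u' v') ^ 2 := by
    rw [h4] at h1
    have h6 : (27 * kT u v) ^ 2 + (9 * kH u v) ^ 3 = 729 * 1728 * kf u v ^ 5 := by
      linear_combination 729 * h2
    rw [h6] at h1
    have h7 : kf u v ^ 5 * dlH (9 * kH u v) (27 * kT u v) 1 z ^ 5 = kf u' v' ^ 5 := by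
      rw [← mul_pow, h5]
    linear_combination h1 + 729 * 1728 * h7 - 729 * h3
  rcases sq_eq_sq_iff_eq_or_eq_neg.mp hsq with h | h
  · exact h
  · exfalso
    set ev : P3 →+* ℤ := MvPolynomial.eval ![1, 0, 0] with hev
    have e0 : ev u = 1 := by simp [hev, hu]
    have e1 : ev v = 0 := by simp [hev, hv]
    have e2 : ev z = 0 := by simp [hev, hz]
    have h8 := congrArg ev h
    rw [map_TpH] at h8
    simp only [hu', hv', map_neg, map_add, map_sub, map_mul, map_one, map_ofNat, map_kT, map_kH,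
      map_kfv, map_kfu, e0, e1, e2] at h8
    rw [TpH_one_zero] at h8
    norm_num [kT, kfu, kfv] at h8

/-- **the `T`-bridge in the chart `t = 1` over any commutative ring**, from the `H`- and `f`-bridges
over `ℤ[u, v, z]`. -/
theorem TpH_bridge_one
    (hH : ∀ u v z : P3, HpH (9 * kH u v) (27 * kT u v) 1 z =
      9 * kH (u + 3 * z * kfv u v) (v - 3 * z * kfu u v))
    (hf : ∀ u v z : P3, kf u v * dlH (9 * kH u v) (27 * kT u v) 1 z =
      kf (u + 3 * z * kfv u v) (v - 3 * z * kfu u v))
    {R : Type*} [CommRing R] (u v z : R) :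
    TpH (9 * kH u v) (27 * kT u v) 1 z =
      27 * kT (u + 3 * z * kfv u v) (v - 3 * z * kfu u v) := by
  have h := TpH_bridge_one_P3 hH hf
  set φ : P3 →+* R := MvPolynomial.eval₂Hom (Int.castRingHom R) ![u, v, z] with hφ
  have e0 : φ (X 0) = u := by simp [hφ]
  have e1 : φ (X 1) = v := by simp [hφ]
  have e2 : φ (X 2) = z := by simp [hφ]
  have h' := congrArg φ h
  rw [map_TpH] at h'
  simp only [map_add, map_sub, map_mul, map_one, map_ofNat, map_kfv, map_kfu, map_kH, map_kT,
    e0, e1, e2] at h'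
  exact h'

end Fermat.Agent.S52lib.Glue
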