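/-
S52 (3–5 switch), Glue block (helper2), brick (G1'): weak Chebotarev for an element of order two
modulo an open normal subgroup of `G_ℚ`.

If `U ≤ G_ℚ` is an open normal subgroup and `g ∈ G_ℚ` has `g * g ∈ U`, then outside any finite set
of primes there is a Frobenius element `φ` with `g⁻¹ * φ ∈ U`.
-/
import Fermat.Agent.S52lib.Glue.WeakChebGen

set_option autoImplicit false
set_option linter.style.haveILetI false
set_option linter.unusedSectionVars false

noncomputable section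

namespace Fermat.Agent.S52lib.Glue

open Fermat.Agent.ExtVan.InertiaLift Fermat.Agent.Helper5

/-- group theory: if `a`, `b` generate the same cyclic subgroup modulo the normal subgroup `U` and
`a` has order at most two modulo `U`, then `a = b` modulo `U`. -/
theorem inv_mul_mem_of_generate {G : Type*} [Group G] (U : Subgroup G) [U.Normal] {a b : G}
    {i j : ℕ} (hi : (a ^ i)⁻¹ * b ∈ U) (hj : a⁻¹ * b ^ j ∈ U) (ha : a * a ∈ U) :
    a⁻¹ * b ∈ U := by
  rw [← QuotientGroup.eq] at hi hj ⊢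
  have ha' : ((a : G) : G ⧸ U) * (a : G ⧸ U) = 1 := by
    rw [← QuotientGroup.mk_mul]
    exact (QuotientGroup.eq_one_iff _).mpr ha
  rw [QuotientGroup.mk_pow] at hi hj
  set x : G ⧸ U := (a : G ⧸ U) with hx
  set y : G ⧸ U := (b : G ⧸ U) with hy
  have hx2 : x ^ 2 = 1 := by rw [pow_two]; exact ha'
  rcases Nat.even_or_odd' i with ⟨k, rfl | rfl⟩
  · -- `y = 1`
    have hy1 : y = 1 := by rw [← hi, pow_mul, hx2, one_pow]
    rw [hj, hy1, one_pow]
  · rw [← hi, pow_succ, pow_mul, hx2, one_pow, one_mul]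

/-- **Weak Chebotarev modulo an open normal subgroup, for elements of order two.** -/
theorem exists_frobenius_inv_mul_mem (U : Subgroup GQ) [U.Normal] (hU : IsOpen (U : Set GQ))
    (g : GQ) (hg : g * g ∈ U) (S₀ : Finset ℕ) :
    ∃ (ℓ : ℕ) (A : ValuationSubring Qb) (φ : GQ),
      ℓ.Prime ∧ ℓ ∉ S₀ ∧ A.LiesOverPrime ℓ ∧ A.IsFrobeniusAt φ ℓ ∧ g⁻¹ * φ ∈ U := by
  obtain ⟨L, hL, hLU⟩ := (krullTopology_mem_nhds_one_iff ℚ Qb (U : Set GQ)).mp
    (hU.mem_nhds U.one_mem)
  haveI := hL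
  obtain ⟨ℓ, A, φ, i, j, h1, h2, h3, h4, h5, h6⟩ := exists_frobenius_generates_of_finite L g S₀
  refine ⟨ℓ, A, φ, h1, h2, h3, h4, ?_⟩
  have hi : (g ^ i)⁻¹ * φ ∈ U := by
    apply hLU
    intro x
    show ((g ^ i)⁻¹ * φ) • (x : Qb) = x
    rw [AlgEquiv.smul_def, AlgEquiv.mul_apply, h6 x x.2]
    exact (g ^ i).symm_apply_apply x
  have hj : g⁻¹ * φ ^ j ∈ U := by
    apply hLU
    intro x
    show (g⁻¹ * φ ^ j) • (x : Qb) = x
    rw [AlgEquiv.smul_def, AlgEquiv.mul_apply, ← h5 x x.2]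
    exact g.symm_apply_apply x
  exact inv_mul_mem_of_generate U hi hj hg

end Fermat.Agent.S52lib.Glue
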