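/-
S52 (3–5 switch), Glue block (helper2), brick (G3): **`√-3 ∉ ℚ(E[p])`** for a semistable curve and an
odd prime `p ≠ 3`, in the usable form

  `∃ h : G_ℚ, (∀ P ∈ E[p], h • P = P) ∧ h s = -s`   (`s ^ 2 = -3`).

Proof: the nontrivial automorphism of `ℚ(s)` acts trivially modulo any prime over `3`, so
(`ExtVan.InertiaLift.exists_inertia_lift`) there are a place `A ∣ 3` of `ℚ̄` and `τ` in the inertia
group of `A` with `τ s = -s`.  By helper6's `Mod5.inertia_pow_smul_eq_self`, `τ ^ p` fixes `E[p]`;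
and `τ ^ p s = -s` since `p` is odd.
-/
import Fermat.Agent.ExtVan.InertiaLift
import Fermat.Agent.S29lib.X.Cyclo
import Fermat.Agent.S52lib.Mod5.Inertia

set_option autoImplicit false
set_option linter.style.haveILetI false
set_option linter.unusedSectionVars false

open NumberField Polynomial IntermediateField

noncomputable section

namespace Fermat.Agent.S52lib.Glue

open Fermat.Agent.ExtVan.InertiaLift

/-! ### the quadratic field `ℚ(s)`, `s ^ 2 = -3` -/

section Quad

variable {s : Qb} (hs : s ^ 2 = -3)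

theorem irreducible_X_sq_add_three : Irreducible (X ^ 2 + C 3 : ℚ[X]) := by
  have hdeg : (X ^ 2 + C 3 : ℚ[X]).natDegree = 2 := natDegree_X_pow_add_C
  apply irreducible_of_degree_le_three_of_not_isRoot
  · rw [hdeg]; decide
  · intro x hx
    rw [IsRoot.def, eval_add, eval_pow, eval_X, eval_C] at hx
    nlinarith [sq_nonneg x]

include hs in
theorem minpoly_sqrt_neg_three : minpoly ℚ s = X ^ 2 + C 3 := by
  symm
  apply minpoly.eq_of_irreducible_of_monic irreducible_X_sq_add_three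
  · rw [map_add, map_pow, aeval_X, aeval_C, hs]
    simp
  · exact monic_X_pow_add_C _ (by norm_num)

include hs in
theorem isIntegral_sqrt_neg_three : IsIntegral ℤ s := by
  refine ⟨X ^ 2 + C 3, monic_X_pow_add_C _ (by norm_num), ?_⟩
  rw [eval₂_add, eval₂_pow, eval₂_X, eval₂_C, hs]
  simp

include hs in
theorem sqrt_neg_three_ne_zero : s ≠ 0 := by
  rintro rfl
  norm_num at hs

include hs in
theorem finrank_adjoin_sqrt_neg_three : Module.finrank ℚ ℚ⟮s⟯ = 2 := by
  have hint : IsIntegral ℚ s := (isIntegral_sqrt_neg_three hs).tower_top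
  rw [IntermediateField.adjoin.finrank hint, minpoly_sqrt_neg_three hs]
  exact natDegree_X_pow_add_C

end Quad

/-- **An inertia element at `3` moving `√-3`.** -/
theorem exists_inertia_three_neg {s : Qb} (hs : s ^ 2 = -3) :
    ∃ (A : ValuationSubring Qb) (τ : Qb ≃ₐ[ℚ] Qb), A.LiesOverPrime 3 ∧
      τ ∈ A.inertiaSubgroupIn ℚ ∧ τ s = -s := by
  classical
  set M : IntermediateField ℚ Qb := ℚ⟮s⟯ with hM
  have hsM : s ∈ M := mem_adjoin_simple_self ℚ s
  have hrank : Module.finrank ℚ M = 2 := finrank_adjoin_sqrt_neg_three hs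
  haveI : Algebra.IsQuadraticExtension ℚ M := ⟨hrank⟩
  haveI : FiniteDimensional ℚ M := inferInstance
  haveI : IsGalois ℚ M := inferInstance
  have hs0 : s ≠ 0 := sqrt_neg_three_ne_zero hs
  -- an automorphism of `ℚ̄` sending `s` to `-s`
  have hev : aeval (-s) (minpoly ℚ s) = 0 := by
    rw [minpoly_sqrt_neg_three hs, map_add, map_pow, aeval_X, aeval_C, neg_sq, hs]
    simp
  obtain ⟨g₀, hg₀⟩ := minpoly.exists_algEquiv_of_root'
    (Algebra.IsAlgebraic.isAlgebraic (R := ℚ) s) hev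
  set σ : M ≃ₐ[ℚ] M := AlgEquiv.restrictNormalHom M g₀ with hσ
  set sM : M := ⟨s, hsM⟩ with hsM'
  have hσs : σ sM = -sM := by
    apply Subtype.ext
    have h := AlgEquiv.restrictNormal_commutes g₀ M sM
    have h' : ((σ sM : M) : Qb) = g₀ s := h
    rw [h', hg₀]
    rfl
  have hsM2 : sM ^ 2 = -3 := by
    apply Subtype.ext
    have : ((sM ^ 2 : M) : Qb) = s ^ 2 := rfl
    rw [this, hs]
    rfl
  have hsM0 : sM ≠ 0 := by
    intro h
    apply hs0
    exact congrArg (fun z : M => (z : Qb)) h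
  have hσ1 : σ ≠ 1 := by
    intro h
    have h1 : σ sM = sM := by rw [h]; rfl
    rw [hσs] at h1
    have h2 : (2 : M) * sM = 0 := by linear_combination -h1
    rcases mul_eq_zero.mp h2 with h3 | h3
    · norm_num at h3
    · exact hsM0 h3
  -- the Galois group is `{1, σ}`
  have hcard : Nat.card (M ≃ₐ[ℚ] M) = 2 := by
    rw [IsGalois.card_aut_eq_finrank, hrank]
  have hall : ∀ f : M ≃ₐ[ℚ] M, f = 1 ∨ f = σ := by
    intro f
    by_contra hf
    rw [not_or] at hf
    have h3 : 2 < Nat.card (M ≃ₐ[ℚ] M) := by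
      rw [Nat.card_eq_fintype_card]
      exact Fintype.two_lt_card_iff.mpr ⟨1, σ, f, hσ1.symm, Ne.symm hf.1, Ne.symm hf.2⟩
    omega
  have hσσ : ∀ z : M, σ (σ z) = z := by
    intro z
    have h2 : σ * σ = 1 := by
      rcases hall (σ * σ) with h | h
      · exact h
      · exfalso
        apply hσ1
        have := congrArg (fun f => σ⁻¹ * f) h
        simpa using this
    have := congrArg (fun f : M ≃ₐ[ℚ] M => f z) h2
    simpa [AlgEquiv.mul_apply] using this
  -- `σ`-fixed integers are rational integers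
  have hfix : ∀ z : 𝓞 M, σ (z : M) = (z : M) → ∃ n : ℤ, (z : M) = (n : M) := by
    intro z hz
    have h1 : (z : M) ∈ Set.range (algebraMap ℚ M) := by
      rw [IsGalois.mem_range_algebraMap_iff_fixed]
      intro f
      rcases hall f with rfl | rfl
      · rfl
      · exact hz
    obtain ⟨q, hq⟩ := h1
    have hzint : IsIntegral ℤ (z : M) := RingOfIntegers.isIntegral_coe z
    rw [← hq] at hzint
    have hqint : IsIntegral ℤ q :=
      (isIntegral_algebraMap_iff (algebraMap ℚ M).injective).mp hzint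
    obtain ⟨n, hn⟩ := IsIntegrallyClosed.isIntegral_iff.mp hqint
    refine ⟨n, ?_⟩
    rw [← hq, ← hn]
    simp
  -- a prime of `𝓞 M` over `3`
  have h3prime : (Ideal.span {(3 : ℤ)}).IsPrime :=
    (Ideal.span_singleton_prime (by norm_num)).mpr Int.prime_three
  obtain ⟨⟨Q, hQ, hQ3⟩⟩ := (Ideal.span {(3 : ℤ)}).nonempty_primesOver (S := 𝓞 M)
  haveI := hQ
  have h3Q : ((3 : ℕ) : 𝓞 M) ∈ Q := by
    have h1 : (3 : ℤ) ∈ Ideal.span {(3 : ℤ)} := Ideal.subset_span rfl
    rw [hQ3.over] at h1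
    simpa using h1
  -- `σ` acts trivially modulo `Q`
  have hσQ : ∀ x : 𝓞 M, σ • x - x ∈ Q := by
    intro x
    set y : 𝓞 M := σ • x - x with hy
    have hyM : (y : M) = σ (x : M) - (x : M) := rfl
    have hσy : σ (y : M) = -(y : M) := by
      rw [hyM, map_sub, hσσ]
      ring
    set sO : 𝓞 M := ⟨sM, by
      have := isIntegral_sqrt_neg_three hs
      exact (isIntegral_algebraMap_iff (algebraMap M Qb).injective).mp this⟩ with hsO
    have hsOM : (sO : M) = sM := rfl
    obtain ⟨n, hn⟩ := hfix (y * sO) (by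
      have : ((y * sO : 𝓞 M) : M) = (y : M) * sM := rfl
      rw [this, map_mul, hσy, hσs]
      ring)
    obtain ⟨m, hm⟩ := hfix (y * y) (by
      have : ((y * y : 𝓞 M) : M) = (y : M) * (y : M) := rfl
      rw [this, map_mul, hσy]
      ring)
    have hn' : (y : M) * sM = (n : M) := hn
    have hm' : (y : M) * (y : M) = (m : M) := hm
    have hrel : n ^ 2 = -3 * m := by
      have h1 : ((n ^ 2 : ℤ) : M) = ((-3 * m : ℤ) : M) := by
        push_cast
        rw [← hn', ← hm']
        linear_combination ((y : M) * (y : M)) * hsM2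
      exact_mod_cast h1
    have h3n : (3 : ℤ) ∣ n := by
      have : (3 : ℤ) ∣ n ^ 2 := ⟨-m, by rw [hrel]; ring⟩
      exact Int.prime_three.dvd_of_dvd_pow this
    obtain ⟨n', rfl⟩ := h3n
    have hm3 : m = -3 * n' ^ 2 := by
      have : (3 : ℤ) * m = 3 * (-3 * n' ^ 2) := by linear_combination hrel
      exact mul_left_cancel₀ (by norm_num) this
    have hyy : y * y = ((3 : ℕ) : 𝓞 M) * ((-n' ^ 2 : ℤ) : 𝓞 M) := by
      apply RingOfIntegers.ext
      have h1 : ((y * y : 𝓞 M) : M) = (m : M) := hm'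
      rw [h1, hm3]
      have h2 : ((((3 : ℕ) : 𝓞 M) * ((-n' ^ 2 : ℤ) : 𝓞 M) : 𝓞 M) : M) =
          ((3 : ℕ) : M) * ((-n' ^ 2 : ℤ) : M) := by
        rw [RingOfIntegers.coe_eq_algebraMap, map_mul, map_natCast, map_intCast]
      rw [h2]
      push_cast
      ring
    have hyyQ : y * y ∈ Q := by
      rw [hyy]
      exact Ideal.mul_mem_right _ _ h3Q
    rcases hQ.mem_or_mem hyyQ with h | h <;> exact h
  obtain ⟨A, τ, hA, hτ, hτσ⟩ := exists_inertia_lift M Q (ℓ := 3) (by norm_num) h3Q σ hσQ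
  refine ⟨A, τ, hA, hτ, ?_⟩
  have h1 := AlgEquiv.restrictNormal_commutes τ M sM
  have h2 : ((AlgEquiv.restrictNormalHom M τ sM : M) : Qb) = τ s := h1
  rw [hτσ, hσs] at h2
  rw [← h2]
  rfl

/-! ### the curve -/

open WeierstrassCurve

/-- **`√-3 ∉ ℚ(E[p])`** for a semistable `W` and an odd prime `p ≠ 3`: there is `h ∈ G_ℚ` fixing `E[p]`
pointwise with `h s = -s`. -/
theorem exists_fix_torsion_neg_sqrt (W : WeierstrassCurve ℤ) (hΔ : W.Δ ≠ 0)
    (hss : W.IsSemistableModel) (p : ℕ) [hp : Fact p.Prime] (hp2 : p ≠ 2) (hp3 : p ≠ 3)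
    {s : Qb} (hs : s ^ 2 = -3) :
    ∃ h : Qb ≃ₐ[ℚ] Qb, (∀ P : Fermat.Agent.S58lib.Tate.Pts (Fermat.Agent.S58lib.Tate.WQ' W),
      p • P = 0 → h • P = P) ∧ h s = -s := by
  obtain ⟨A, τ, hA, hτ, hτs⟩ := exists_inertia_three_neg hs
  refine ⟨τ ^ p, fun P hP => ?_, ?_⟩
  · exact Fermat.Agent.S52lib.Mod5.inertia_pow_smul_eq_self W hΔ p hss hp2 Nat.prime_three
      (Ne.symm hp3) hA hτ P hP
  · have hodd : Odd p := hp.out.odd_of_ne_two hp2
    have hpow : ∀ n : ℕ, (τ ^ n) s = (-1) ^ n * s := by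
      intro n
      induction n with
      | zero => simp
      | succ n ih =>
        rw [pow_succ, AlgEquiv.mul_apply, hτs, map_neg, ih]
        ring
    rw [hpow p, hodd.neg_one_pow]
    ring

/-- the same, with `h` also fixing the `p`-th roots of unity. -/
theorem exists_fix_torsion_roots_neg_sqrt (W : WeierstrassCurve ℤ) (hΔ : W.Δ ≠ 0)
    (hss : W.IsSemistableModel) (p : ℕ) [hp : Fact p.Prime] (hp2 : p ≠ 2) (hp3 : p ≠ 3)
    {s : Qb} (hs : s ^ 2 = -3) :
    ∃ h : Qb ≃ₐ[ℚ] Qb, (∀ P : Fermat.Agent.S58lib.Tate.Pts (Fermat.Agent.S58lib.Tate.WQ' W),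
      p • P = 0 → h • P = P) ∧ (∀ ζ : Qb, ζ ^ p = 1 → h ζ = ζ) ∧ h s = -s := by
  obtain ⟨A, τ, hA, hτ, hτs⟩ := exists_inertia_three_neg hs
  refine ⟨τ ^ p, fun P hP => ?_, fun ζ hζ => ?_, ?_⟩
  · exact Fermat.Agent.S52lib.Mod5.inertia_pow_smul_eq_self W hΔ p hss hp2 Nat.prime_three
      (Ne.symm hp3) hA hτ P hP
  · have hχ : Fermat.Agent.ExtVan.chi p τ = 1 :=
      Fermat.Agent.S29lib.X.chi_of_mem_inertia Nat.prime_three (Ne.symm hp3) hA hτ
    have hτζ : τ ζ = ζ := by
      have h1 := Fermat.Agent.ExtVan.chi_spec τ hζ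
      haveI : Fact (1 < p) := ⟨hp.out.one_lt⟩
      rw [hχ, ZMod.val_one, pow_one] at h1
      exact h1
    have hpow : ∀ n : ℕ, (τ ^ n) ζ = ζ := by
      intro n
      induction n with
      | zero => simp
      | succ n ih => rw [pow_succ, AlgEquiv.mul_apply, hτζ, ih]
    exact hpow p
  · have hodd : Odd p := hp.out.odd_of_ne_two hp2
    have hpow : ∀ n : ℕ, (τ ^ n) s = (-1) ^ n * s := by
      intro n
      induction n with
      | zero => simp
      | succ n ih =>
        rw [pow_succ, AlgEquiv.mul_apply, hτs, map_neg, ih]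
        ring
    rw [hpow p, hodd.neg_one_pow]
    ring

end Fermat.Agent.S52lib.Glue
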