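/-
S52 (3–5 switch), Glue block (helper2), brick (G4): **the Chebotarev prime.**

For a semistable `W` (`Δ ≠ 0`), an odd prime `p ≠ 3` and a finite set `S₀` of primes there are a
prime `r ∉ S₀`, a place `A ∣ r` of `ℚ̄`, a Frobenius element `φ` at `A` and `u ∈ G_ℚ` with

* `φ = c * u`, `c` the complex conjugation, `u` fixing `E[p]` and `μ_p` pointwise
  (so `φ z = c z` for every `z ∈ ℚ̄` fixed by the pointwise stabiliser of `E[p] ∪ μ_p`);
* `φ s = s` for `s ^ 2 = -3`, hence `r % 3 = 1`;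
* `φ ζ = ζ⁻¹` for `ζ ^ p = 1`, hence `r = -1` in `ZMod p`.
-/
import Fermat.Agent.S52lib.Glue.ChebOpen
import Fermat.Agent.S52lib.Glue.Sqrt3
import Fermat.Agent.S58lib.Cmp.Conj

set_option autoImplicit false
set_option linter.style.haveILetI false
set_option linter.unusedSectionVars false

noncomputable section

namespace Fermat.Agent.S52lib.Glue

open Fermat.Agent.ExtVan.InertiaLift Fermat.Agent.Helper5
open WeierstrassCurve

/-- points of `E` over `ℚ̄` -/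
local notation "PtsW" W => Fermat.Agent.S58lib.Tate.Pts (Fermat.Agent.S58lib.Tate.WQ' W)

variable (W : WeierstrassCurve ℤ) (p : ℕ)

/-- the pointwise stabiliser of `E[p] ∪ μ_p` in `G_ℚ`. -/
def torsFix : Subgroup GQ where
  carrier := {σ | (∀ P : PtsW W, p • P = 0 → σ • P = P) ∧ (∀ ζ : Qb, ζ ^ p = 1 → σ ζ = ζ)}
  one_mem' := ⟨fun P _ => one_smul _ P, fun _ _ => rfl⟩
  mul_mem' := by
    rintro σ τ ⟨h1, h2⟩ ⟨h3, h4⟩
    refine ⟨fun P hP => ?_, fun ζ hζ => ?_⟩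
    · rw [mul_smul, h3 P hP, h1 P hP]
    · rw [AlgEquiv.mul_apply, h4 ζ hζ, h2 ζ hζ]
  inv_mem' := by
    rintro σ ⟨h1, h2⟩
    refine ⟨fun P hP => ?_, fun ζ hζ => ?_⟩
    · have := congrArg (fun Q => σ⁻¹ • Q) (h1 P hP)
      simpa using this.symm
    · have := congrArg (fun z => σ⁻¹ z) (h2 ζ hζ)
      simpa using this.symm

theorem mem_torsFix {σ : GQ} : σ ∈ torsFix W p ↔
    (∀ P : PtsW W, p • P = 0 → σ • P = P) ∧ (∀ ζ : Qb, ζ ^ p = 1 → σ ζ = ζ) := Iff.rfl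

/-- `G_ℚ` preserves `E[p]`. -/
theorem nsmul_smul_eq_zero (γ : GQ) {P : PtsW W} (hP : p • P = 0) : p • (γ • P) = 0 := by
  have h := (DistribSMul.toAddMonoidHom (PtsW W) γ).map_nsmul p P
  have h' : γ • (p • P) = p • (γ • P) := h
  rw [← h', hP]
  exact smul_zero (A := PtsW W) γ

instance torsFix_normal : (torsFix W p).Normal := by
  constructor
  rintro σ ⟨h1, h2⟩ γ
  refine ⟨fun P hP => ?_, fun ζ hζ => ?_⟩
  · rw [mul_smul, mul_smul, h1 _ (nsmul_smul_eq_zero W p γ⁻¹ hP), smul_inv_smul]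
  · have hζ' : (γ⁻¹ ζ) ^ p = 1 := by rw [← map_pow, hζ, map_one]
    rw [AlgEquiv.mul_apply, AlgEquiv.mul_apply, h2 _ hζ']
    exact γ.apply_symm_apply ζ

/-- the subgroup of `torsFix` fixing a given element `s`. -/
def torsFixS (s : Qb) : Subgroup GQ where
  carrier := {σ | σ ∈ torsFix W p ∧ σ s = s}
  one_mem' := ⟨(torsFix W p).one_mem, rfl⟩
  mul_mem' := by
    rintro σ τ ⟨h1, h2⟩ ⟨h3, h4⟩
    exact ⟨(torsFix W p).mul_mem h1 h3, by rw [AlgEquiv.mul_apply, h4, h2]⟩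
  inv_mem' := by
    rintro σ ⟨h1, h2⟩
    refine ⟨(torsFix W p).inv_mem h1, ?_⟩
    have := congrArg (fun z => σ⁻¹ z) h2
    simpa using this.symm

theorem mem_torsFixS {s : Qb} {σ : GQ} : σ ∈ torsFixS W p s ↔ σ ∈ torsFix W p ∧ σ s = s := Iff.rfl

/-- an element of `G_ℚ` maps a square root of `-3` to a square root of `-3`. -/
theorem apply_sqrt_eq_or {s : Qb} (hs : s ^ 2 = -3) (γ : GQ) : γ s = s ∨ γ s = -s := by
  have h : (γ s) ^ 2 = s ^ 2 := by
    rw [← map_pow, hs, map_neg, map_ofNat]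
  have h2 : (γ s - s) * (γ s + s) = 0 := by linear_combination h
  rcases mul_eq_zero.mp h2 with h3 | h3
  · left; exact sub_eq_zero.mp h3
  · right; exact eq_neg_of_add_eq_zero_left h3

theorem torsFixS_normal {s : Qb} (hs : s ^ 2 = -3) : (torsFixS W p s).Normal := by
  constructor
  rintro σ ⟨h1, h2⟩ γ
  refine ⟨(torsFix_normal W p).conj_mem σ h1 γ, ?_⟩
  rw [AlgEquiv.mul_apply, AlgEquiv.mul_apply]
  have hγ : γ (γ⁻¹ s) = s := γ.apply_symm_apply s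
  rcases apply_sqrt_eq_or hs γ⁻¹ with h | h
  · rw [h] at hγ ⊢
    rw [h2]
    exact hγ
  · rw [h] at hγ ⊢
    rw [map_neg, h2]
    exact hγ

theorem torsFixS_isOpen (hΔ : W.Δ ≠ 0) [hp : Fact p.Prime] (s : Qb) :
    IsOpen (torsFixS W p s : Set GQ) := by
  obtain ⟨L₁, hL₁, hfix⟩ := Fermat.Agent.S58lib.Tate.exists_finite_field_of_finite
    (Fermat.Agent.S58lib.Tate.WQ' W) _
    (Fermat.Agent.S58lib.Tate.finite_tors (Fermat.Agent.S58lib.Tate.WQ' W) p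
      (Fermat.Agent.S58lib.Tate.WQ'_Δ_ne_zero hΔ) 1)
  haveI := hL₁
  haveI : NeZero p := ⟨hp.out.ne_zero⟩
  haveI : NeZero (p : Qb) := ⟨Nat.cast_ne_zero.mpr hp.out.ne_zero⟩
  obtain ⟨ζ, hζ⟩ := HasEnoughRootsOfUnity.exists_primitiveRoot Qb p
  have hQ : Algebra.IsAlgebraic ℚ Qb := AlgebraicClosure.isAlgebraic ℚ
  haveI : FiniteDimensional ℚ (IntermediateField.adjoin ℚ {s}) :=
    IntermediateField.adjoin.finiteDimensional (hQ.isAlgebraic s).isIntegral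
  haveI : FiniteDimensional ℚ (IntermediateField.adjoin ℚ {ζ}) :=
    IntermediateField.adjoin.finiteDimensional (hQ.isAlgebraic ζ).isIntegral
  set L : IntermediateField ℚ Qb :=
    L₁ ⊔ IntermediateField.adjoin ℚ {s} ⊔ IntermediateField.adjoin ℚ {ζ} with hL
  haveI : FiniteDimensional ℚ L := by
    rw [hL]
    infer_instance
  refine Subgroup.isOpen_mono (H₁ := L.fixingSubgroup) ?_ (IntermediateField.fixingSubgroup_isOpen L)
  intro σ hσ
  rw [IntermediateField.mem_fixingSubgroup_iff] at hσ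
  have h1 : ∀ x ∈ L₁, σ x = x := fun x hx =>
    hσ x ((le_sup_left.trans le_sup_left : L₁ ≤ L) hx)
  have h2 : σ s = s := hσ s ((le_sup_right.trans le_sup_left :
    IntermediateField.adjoin ℚ {s} ≤ L) (IntermediateField.mem_adjoin_simple_self ℚ s))
  have h3 : σ ζ = ζ := hσ ζ ((le_sup_right :
    IntermediateField.adjoin ℚ {ζ} ≤ L) (IntermediateField.mem_adjoin_simple_self ℚ ζ))
  refine ⟨⟨fun P hP => hfix σ h1 P (Fermat.Agent.S58lib.Tate.mem_tors.mpr (by rwa [pow_one])), fun ζ' hζ' => ?_⟩, h2⟩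
  obtain ⟨i, -, rfl⟩ := hζ.eq_pow_of_pow_eq_one hζ'
  rw [map_pow, h3]

/-- **The Chebotarev prime.** -/
theorem exists_frobenius_conj_mul (hΔ : W.Δ ≠ 0) (hss : W.IsSemistableModel) [hp : Fact p.Prime]
    (hp2 : p ≠ 2) (hp3 : p ≠ 3) (S₀ : Finset ℕ) :
    ∃ (r : ℕ) (A : ValuationSubring Qb) (φ u : GQ), r.Prime ∧ r ∉ S₀ ∧ A.LiesOverPrime r ∧
      A.IsFrobeniusAt φ r ∧ φ = complexConjugation * u ∧ u ∈ torsFix W p ∧
      ∀ s : Qb, s ^ 2 = -3 → φ s = s := by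
  obtain ⟨s, hs⟩ := IsAlgClosed.exists_pow_nat_eq (-3 : Qb) (n := 2) (by norm_num)
  obtain ⟨h, hh1, hh2, hh3⟩ := exists_fix_torsion_roots_neg_sqrt W hΔ hss p hp2 hp3 hs
  have hhT : h ∈ torsFix W p := ⟨hh1, hh2⟩
  set c : GQ := complexConjugation with hc
  have hcc : c * c = 1 := complexConjugation_mul_self
  haveI := torsFixS_normal W p hs
  have hopen := torsFixS_isOpen W p hΔ s
  -- it suffices to treat the given `s`
  have hall : ∀ φ : GQ, φ s = s → ∀ s' : Qb, s' ^ 2 = -3 → φ s' = s' := by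
    intro φ hφ s' hs'
    have h2 : (s' - s) * (s' + s) = 0 := by linear_combination hs' - hs
    rcases mul_eq_zero.mp h2 with h3 | h3
    · rw [sub_eq_zero.mp h3, hφ]
    · rw [eq_neg_of_add_eq_zero_left h3, map_neg, hφ]
  by_cases hcs : c s = s
  · -- (impossible) case: take `g = c`
    have hg : c * c ∈ torsFixS W p s := by rw [hcc]; exact Subgroup.one_mem _
    obtain ⟨r, A, φ, hr, hrS, hA, hφ, hmem⟩ :=
      exists_frobenius_inv_mul_mem (torsFixS W p s) hopen c hg S₀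
    refine ⟨r, A, φ, c⁻¹ * φ, hr, hrS, hA, hφ, by group, hmem.1, hall φ ?_⟩
    have h1 : φ = c * (c⁻¹ * φ) := by group
    rw [h1, AlgEquiv.mul_apply, hmem.2, hcs]
  · have hcs' : c s = -s := (apply_sqrt_eq_or hs c).resolve_left hcs
    have hcT : ∀ σ ∈ torsFix W p, c * σ * c ∈ torsFix W p := by
      intro σ hσ
      have := (torsFix_normal W p).conj_mem σ hσ c
      rwa [complexConjugation_inv] at this
    have hg : (c * h) * (c * h) ∈ torsFixS W p s := by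
      refine ⟨?_, ?_⟩
      · have h1 : (c * h) * (c * h) = (c * h * c) * h := by group
        rw [h1]
        exact (torsFix W p).mul_mem (hcT h hhT) hhT
      · simp only [AlgEquiv.mul_apply]
        rw [hh3, map_neg, hcs', neg_neg, hh3, map_neg, hcs', neg_neg]
    obtain ⟨r, A, φ, hr, hrS, hA, hφ, hmem⟩ :=
      exists_frobenius_inv_mul_mem (torsFixS W p s) hopen (c * h) hg S₀
    refine ⟨r, A, φ, h * ((c * h)⁻¹ * φ), hr, hrS, hA, hφ, by group,
      (torsFix W p).mul_mem hhT hmem.1, hall φ ?_⟩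
    have h1 : φ = c * (h * ((c * h)⁻¹ * φ)) := by group
    rw [h1, AlgEquiv.mul_apply, AlgEquiv.mul_apply, hmem.2, hh3, map_neg, hcs', neg_neg]

/-- a Frobenius element at `r ≠ 3` fixing the square roots of `-3` has `r ≡ 1 mod 3`. -/
theorem mod_three_eq_one_of_frobenius_fixes_sqrt {r : ℕ} (hr : r.Prime) (hr3 : r ≠ 3)
    {A : ValuationSubring Qb} (hA : A.LiesOverPrime r) {φ : GQ} (hφ : A.IsFrobeniusAt φ r)
    (hs : ∀ s : Qb, s ^ 2 = -3 → φ s = s) : r % 3 = 1 := by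
  haveI : Fact (Nat.Prime 3) := ⟨Nat.prime_three⟩
  have hζ : IsPrimitiveRoot (Fermat.Agent.ExtVan.zetaQ 3) 3 := Fermat.Agent.ExtVan.zetaQ_spec 3
  set ζ : Qb := Fermat.Agent.ExtVan.zetaQ 3 with hζdef
  have h1 : ζ ^ 2 + ζ + 1 = 0 := by
    have h3 : ζ ^ 3 = 1 := hζ.pow_eq_one
    have hne : ζ ≠ 1 := hζ.ne_one (by norm_num)
    have h4 : (ζ - 1) * (ζ ^ 2 + ζ + 1) = 0 := by linear_combination h3
    rcases mul_eq_zero.mp h4 with h5 | h5
    · exact absurd (sub_eq_zero.mp h5) hne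
    · exact h5
  have h2 : (2 * ζ + 1) ^ 2 = -3 := by linear_combination 4 * h1
  have h3 := hs _ h2
  rw [map_add, map_mul, map_one, map_ofNat] at h3
  have h4 : φ ζ = ζ := by
    have h5 : (2 : Qb) * (φ ζ - ζ) = 0 := by linear_combination h3
    rcases mul_eq_zero.mp h5 with h6 | h6
    · norm_num at h6
    · exact sub_eq_zero.mp h6
  have h5 : Fermat.Agent.ExtVan.chi 3 φ = 1 := (Fermat.Agent.ExtVan.chi_eq_one_iff φ hζ).mpr h4
  have h6 : Fermat.Agent.ExtVan.chi 3 φ = (r : ZMod 3) :=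
    Fermat.Agent.S29lib.X.chi_of_isFrobeniusAt hr hr3 hA hφ
  rw [h5] at h6
  have h7 : ((r : ℕ) : ZMod 3) = ((1 : ℕ) : ZMod 3) := by rw [← h6]; simp
  have h8 := (ZMod.natCast_eq_natCast_iff' r 1 3).mp h7
  simpa using h8

/-- a Frobenius element at `r ≠ p` inverting the `p`-th roots of unity has `r ≡ -1 mod p`. -/
theorem natCast_eq_neg_one_of_frobenius_inv [hp : Fact p.Prime] {r : ℕ} (hr : r.Prime)
    (hrp : r ≠ p) {A : ValuationSubring Qb} (hA : A.LiesOverPrime r) {φ : GQ}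
    (hφ : A.IsFrobeniusAt φ r) (hinv : ∀ ζ : Qb, ζ ^ p = 1 → φ ζ = ζ⁻¹) :
    (r : ZMod p) = -1 := by
  have hζ : IsPrimitiveRoot (Fermat.Agent.ExtVan.zetaQ p) p := Fermat.Agent.ExtVan.zetaQ_spec p
  set ζ : Qb := Fermat.Agent.ExtVan.zetaQ p with hζdef
  have hp1 : 1 ≤ p := hp.out.one_lt.le
  have hζ0 : ζ ≠ 0 := hζ.ne_zero hp.out.ne_zero
  have h1 : φ ζ = ζ ^ (p - 1) := by
    rw [hinv ζ hζ.pow_eq_one]
    apply inv_eq_of_mul_eq_one_left
    rw [← pow_succ, Nat.sub_add_cancel hp1, hζ.pow_eq_one]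
  have h2 : Fermat.Agent.ExtVan.chi p φ = ((p - 1 : ℕ) : ZMod p) :=
    Fermat.Agent.ExtVan.chi_eq_of_apply φ hζ h1
  have h3 : Fermat.Agent.ExtVan.chi p φ = (r : ZMod p) :=
    Fermat.Agent.S29lib.X.chi_of_isFrobeniusAt hr hrp hA hφ
  rw [← h3, h2, Nat.cast_sub hp1]
  simp

/-- **The Chebotarev prime, packaged.** -/
theorem exists_chebotarev_prime (hΔ : W.Δ ≠ 0) (hss : W.IsSemistableModel) [hp : Fact p.Prime]
    (hp2 : p ≠ 2) (hp3 : p ≠ 3) (S₀ : Finset ℕ) :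
    ∃ (r : ℕ) (A : ValuationSubring Qb) (φ u : GQ), r.Prime ∧ r ∉ S₀ ∧ r ≠ 3 ∧ r ≠ p ∧
      A.LiesOverPrime r ∧ A.IsFrobeniusAt φ r ∧ φ = complexConjugation * u ∧ u ∈ torsFix W p ∧
      (∀ s : Qb, s ^ 2 = -3 → φ s = s) ∧ (∀ ζ : Qb, ζ ^ p = 1 → φ ζ = ζ⁻¹) ∧
      (∀ P : PtsW W, p • P = 0 → φ • P = complexConjugation • P) ∧
      r % 3 = 1 ∧ (r : ZMod p) = -1 := by
  obtain ⟨r, A, φ, u, hr, hrS, hA, hφ, hφu, hu, hs⟩ :=
    exists_frobenius_conj_mul W p hΔ hss hp2 hp3 (S₀ ∪ {3, p})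
  have hr3 : r ≠ 3 := by
    rintro rfl
    exact hrS (Finset.mem_union_right _ (by simp))
  have hrp : r ≠ p := by
    rintro rfl
    exact hrS (Finset.mem_union_right _ (by simp))
  have hinv : ∀ ζ : Qb, ζ ^ p = 1 → φ ζ = ζ⁻¹ := by
    intro ζ hζ
    rw [hφu, AlgEquiv.mul_apply, hu.2 ζ hζ]
    exact Fermat.Agent.S58lib.Cmp.complexConjugation_of_pow_eq_one hp.out.ne_zero hζ
  refine ⟨r, A, φ, u, hr, fun h => hrS (Finset.mem_union_left _ h), hr3, hrp, hA, hφ, hφu, hu, hs,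
    hinv, fun P hP => ?_, mod_three_eq_one_of_frobenius_fixes_sqrt hr hr3 hA hφ hs,
    natCast_eq_neg_one_of_frobenius_inv p hr hrp hA hφ hinv⟩
  rw [hφu, mul_smul, hu.1 P hP]

/-- what the assembly uses: `φ` and `c` agree on every element of `ℚ̄` fixed by the pointwise
stabiliser of `E[p] ∪ μ_p`. -/
theorem apply_eq_conj_of_fixed {φ u : GQ} (hφu : φ = complexConjugation * u)
    (hu : u ∈ torsFix W p) {z : Qb} (hz : ∀ σ ∈ torsFix W p, σ z = z) :
    φ z = complexConjugation z := by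
  rw [hφu, AlgEquiv.mul_apply, hz u hu]

end Fermat.Agent.S52lib.Glue
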