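/-
S52 (3–5 switch), Glue block (helper2), brick (G6): at the Chebotarev prime `r` the reduction of `W`
has an `𝔽_r`-rational point of exact order `p`.

`φ` (Frobenius at `r`) acts on `E[p]` as complex conjugation `c`, an involution of determinant `-1`,
so `a_r(W) ≡ tr(φ | E[p]) = tr(c | E[p]) = 0 mod p`; with `r ≡ -1 mod p` this gives
`p ∣ r + 1 - a_r = #E(𝔽_r)`, and Cauchy's theorem produces the point.
-/
import Fermat.Agent.S52lib.Glue.ChebPrime
import Fermat.Agent.S52lib.Mod5.ConjFixed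

set_option autoImplicit false
set_option linter.style.haveILetI false
set_option linter.unusedSectionVars false

noncomputable section

namespace Fermat.Agent.S52lib.Glue

open WeierstrassCurve Polynomial
open Fermat.Agent.S58lib.Tate Fermat.Agent.S52lib.Mod5

/-- a `2 × 2` involution of determinant `-1` has trace `0`. -/
theorem trace_eq_zero_of_involution {R : Type*} [CommRing R] (M : Matrix (Fin 2) (Fin 2) R)
    (hM : M * M = 1) (hdet : M.det = -1) : M.trace = 0 := by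
  have e1 := congrFun (congrFun hM 0) 0
  have e2 := congrFun (congrFun hM 0) 1
  rw [Matrix.mul_apply, Fin.sum_univ_two] at e1 e2
  rw [Matrix.det_fin_two] at hdet
  rw [Matrix.trace_fin_two]
  simp only [Matrix.one_apply_eq, Matrix.one_apply_ne (show (0 : Fin 2) ≠ 1 by decide)] at e1 e2
  linear_combination (M 0 0 + M 1 1) * hdet - M 1 1 * (e1 + hdet) + M 1 0 * e2

variable (W : WeierstrassCurve ℤ) (hΔ : W.Δ ≠ 0) (p : ℕ) [hp : Fact p.Prime]

include hΔ

/-- the level matrices only depend on the action on `E[p^k]`. -/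
theorem levelMat_eq_of_smul_eq (k : ℕ) {σ τ : GQ}
    (h : ∀ P : Pts (WQ' W), (p ^ k) • P = 0 → σ • P = τ • P) :
    levelMat (WQ' W) p (WQ'_Δ_ne_zero hΔ) k σ = levelMat (WQ' W) p (WQ'_Δ_ne_zero hΔ) k τ := by
  apply (tateSystem (WQ' W) p (WQ'_Δ_ne_zero hΔ)).mat_ext_κ
  intro x
  have h1 := levelMat_mulVec (WQ' W) p (WQ'_Δ_ne_zero hΔ) k σ x
  have h2 := levelMat_mulVec (WQ' W) p (WQ'_Δ_ne_zero hΔ) k τ x
  have h3 : actHom (WQ' W) p k σ x = actHom (WQ' W) p k τ x := by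
    apply Subtype.ext
    rw [actHom_coe, actHom_coe]
    exact h _ (mem_tors.mp x.2)
  rw [h3] at h1
  exact h1.trans h2.symm

/-- **the trace of Frobenius on `E[p^k]` is `a_ℓ`.** -/
theorem trace_levelMat_of_isFrobeniusAt (k : ℕ) {ℓ : ℕ} (hℓ : ℓ.Prime) (hℓp : ℓ ≠ p)
    (hgood : ¬ (ℓ : ℤ) ∣ W.Δ) {A : ValuationSubring Qb} (hA : A.LiesOverPrime ℓ) {φ : GQ}
    (hφ : A.IsFrobeniusAt φ ℓ) :
    (levelMat (WQ' W) p (WQ'_Δ_ne_zero hΔ) k φ).trace = ((W.apOfModel ℓ : ℤ) : ZMod (p ^ k)) := by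
  have hTF := tateFrob_of_frobCore Fermat.Agent.S58lib.Cnt.frobCore W hΔ
  have h := hTF p ℓ hℓ hℓp hgood A hA φ hφ
  set M := tateMatZp (WQ' W) p (WQ'_Δ_ne_zero hΔ) φ with hM
  have hch : M.charpoly = X ^ 2 - C (((W.apOfModel ℓ : ℤ) : ℤ_[p])) * X + C ((ℓ : ℕ) : ℤ_[p]) := by
    rw [← h]
    exact (tateRep_charpoly (WQ' W) p (natCast_mem_maximalIdeal_padicInt p)
      (WQ'_Δ_ne_zero hΔ) φ).symm
  have htr : M.trace = ((W.apOfModel ℓ : ℤ) : ℤ_[p]) := by
    have h1 := Matrix.trace_eq_neg_charpoly_coeff M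
    rw [hch] at h1
    rw [h1]
    simp
  rw [← tateMatZp_map_toZModPow, ← hM]
  have h2 : (M.map (PadicInt.toZModPow k)).trace = PadicInt.toZModPow k M.trace := by
    simp [Matrix.trace, Matrix.map_apply]
  rw [h2, htr, map_intCast]

/-- complex conjugation has trace `0` on `E[p^k]`. -/
theorem trace_levelMat_complexConjugation (k : ℕ) :
    (levelMat (WQ' W) p (WQ'_Δ_ne_zero hΔ) k complexConjugation).trace = 0 := by
  apply trace_eq_zero_of_involution
  · rw [← levelMat_mul', complexConjugation_mul_self, levelMat_one']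
  · exact det_levelMat_complexConjugation W hΔ p k

/-- **`p ∣ a_r(W)` at the Chebotarev prime.** -/
theorem dvd_apOfModel_of_smul_eq_conj {r : ℕ} (hr : r.Prime) (hrp : r ≠ p)
    (hgood : ¬ (r : ℤ) ∣ W.Δ) {A : ValuationSubring Qb} (hA : A.LiesOverPrime r) {φ : GQ}
    (hφ : A.IsFrobeniusAt φ r)
    (hconj : ∀ P : Pts (WQ' W), p • P = 0 → φ • P = complexConjugation • P) :
    (p : ℤ) ∣ W.apOfModel r := by
  have h1 := trace_levelMat_of_isFrobeniusAt W hΔ p 1 hr hrp hgood hA hφ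
  have h2 : levelMat (WQ' W) p (WQ'_Δ_ne_zero hΔ) 1 φ =
      levelMat (WQ' W) p (WQ'_Δ_ne_zero hΔ) 1 complexConjugation :=
    levelMat_eq_of_smul_eq W hΔ p 1 (fun P hP => hconj P (by rwa [pow_one] at hP))
  rw [h2, trace_levelMat_complexConjugation W hΔ p 1] at h1
  have h3 := (ZMod.intCast_zmod_eq_zero_iff_dvd (W.apOfModel r) (p ^ 1)).mp h1.symm
  simpa using h3

/-- **(G6a)** outside any finite set of primes there is a prime `r ≡ 1 mod 3`, `r ≡ -1 mod p`, of
good reduction for `W`, with `p ∣ a_r(W)`. -/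
theorem exists_prime_dvd_apOfModel (hss : W.IsSemistableModel) (hp2 : p ≠ 2) (hp3 : p ≠ 3)
    (S₀ : Finset ℕ) :
    ∃ r : ℕ, r.Prime ∧ r ∉ S₀ ∧ r ≠ 3 ∧ r ≠ p ∧ r % 3 = 1 ∧ (r : ZMod p) = -1 ∧
      ¬ (r : ℤ) ∣ W.Δ ∧ (p : ℤ) ∣ W.apOfModel r := by
  obtain ⟨r, A, φ, u, hr, hrS, hr3, hrp, hA, hφ, -, -, -, -, hconj, hmod3, hmodp⟩ :=
    exists_chebotarev_prime W p hΔ hss hp2 hp3 (S₀ ∪ W.Δ.natAbs.primeFactors)
  have hgood : ¬ (r : ℤ) ∣ W.Δ := by
    intro hd
    apply hrS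
    apply Finset.mem_union_right
    rw [Nat.mem_primeFactors]
    exact ⟨hr, Int.natCast_dvd.mp hd, by simpa using hΔ⟩
  have hap := dvd_apOfModel_of_smul_eq_conj W hΔ p hr hrp hgood hA hφ hconj
  exact ⟨r, hr, fun h => hrS (Finset.mem_union_left _ h), hr3, hrp, hmod3, hmodp, hgood, hap⟩

omit hΔ in
/-- **(G6b)** if `r ≡ -1 mod p` and `p ∣ a_r(W)` then the reduction of `W` modulo `r` has an
`𝔽_r`-rational point of exact order `p`. -/
theorem exists_point_addOrderOf_eq (r : ℕ) [Fact r.Prime] (hmodp : (r : ZMod p) = -1)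
    (hap : (p : ℤ) ∣ W.apOfModel r) :
    ∃ R : (W.reductionMod r).toAffine.Point, addOrderOf R = p := by
  have hcard : (p : ℤ) ∣ (Nat.card (W.reductionMod r).toAffine.Point : ℤ) := by
    have h1 : W.apOfModel r = (Nat.card (ZMod r) : ℤ) + 1 -
        (Nat.card (W.reductionMod r).toAffine.Point : ℤ) := rfl
    have h2 : (Nat.card (W.reductionMod r).toAffine.Point : ℤ) = (r : ℤ) + 1 - W.apOfModel r := by
      rw [h1, Nat.card_zmod]; ring
    rw [h2]
    have h3 : (p : ℤ) ∣ (r : ℤ) + 1 := by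
      rw [← ZMod.intCast_zmod_eq_zero_iff_dvd]
      push_cast
      rw [hmodp]; ring
    exact dvd_sub h3 hap
  have hcard' : p ∣ Nat.card (W.reductionMod r).toAffine.Point := Int.natCast_dvd_natCast.mp hcard
  exact exists_prime_addOrderOf_dvd_card' p hcard'

end Fermat.Agent.S52lib.Glue
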