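/-
S52 (3–5 switch), Glue block (helper2), brick K7: **`RedFiveStatement`** of helper4's `S52lib/Main`.

For a semistable `W` (`Δ ≠ 0`) and a finite set `S₀` of primes there is a prime `r ∉ S₀`, `r ≡ 1 mod 3`,
`r ≡ 4 mod 5`, and a point `R ≠ 0`, `5 • R = 0`, on `Fam.base (-9c₄) (-27c₆) : y² = x³ - 27c₄x - 54c₆`
over `ZMod r`.  (From `PointModR`: a point of order `5` on `W.reductionMod r`, moved to the short
Weierstrass form by an explicit change of variables over `ZMod r`, `r ∤ 6`.)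
-/
import Fermat.Agent.S52lib.FamCurve
import Fermat.Agent.S52lib.Glue.PointModR
import Fermat.Agent.S51lib.Transfer

set_option autoImplicit false
set_option linter.style.haveILetI false
set_option linter.unusedSectionVars false

noncomputable section

namespace Fermat.Agent.S52lib.Glue

open WeierstrassCurve Fermat.Agent.S52lib.Fam

/-- the short Weierstrass form over a field in which `2` and `3` are invertible:
`E ≅ y² = x³ - 27c₄ x - 54c₆`. -/
theorem exists_vc_base {K : Type*} [Field K] (h2 : (2 : K) ≠ 0) (h3 : (3 : K) ≠ 0)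
    (E : WeierstrassCurve K) :
    ∃ C : VariableChange K, C • E = base (-9 * E.c₄) (-27 * E.c₆) := by
  have h6 : (6 : K) ≠ 0 := by
    have : (6 : K) = 2 * 3 := by norm_num
    rw [this]
    exact mul_ne_zero h2 h3
  have h12 : (12 : K) ≠ 0 := by
    have : (12 : K) = 2 * 2 * 3 := by norm_num
    rw [this]
    exact mul_ne_zero (mul_ne_zero h2 h2) h3
  refine ⟨⟨(Units.mk0 6 h6)⁻¹, -E.b₂ / 12, -E.a₁ / 2, -(E.a₃ - E.a₁ * E.b₂ / 12) / 2⟩, ?_⟩
  ext
  · rw [variableChange_a₁]
    simp only [inv_inv, Units.val_mk0, base]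
    field_simp
    ring
  · rw [variableChange_a₂]
    simp only [inv_inv, Units.val_mk0, WeierstrassCurve.b₂, base]
    field_simp
    ring
  · rw [variableChange_a₃]
    simp only [inv_inv, Units.val_mk0, WeierstrassCurve.b₂, base]
    field_simp
    ring
  · rw [variableChange_a₄]
    simp only [inv_inv, Units.val_mk0, WeierstrassCurve.b₂, WeierstrassCurve.c₄,
      WeierstrassCurve.b₄, base]
    field_simp
    ring
  · rw [variableChange_a₆]
    simp only [inv_inv, Units.val_mk0, WeierstrassCurve.b₂, WeierstrassCurve.c₆,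
      WeierstrassCurve.b₄, WeierstrassCurve.b₆, base]
    field_simp
    ring

/-- **K7 = `RedFiveStatement`.** -/
theorem redFive (W : WeierstrassCurve ℤ) (hΔ : W.Δ ≠ 0) (hss : W.IsSemistableModel)
    (S₀ : Finset ℕ) :
    ∃ (r : ℕ) (_ : Fact r.Prime), r ∉ S₀ ∧ r % 3 = 1 ∧ r % 5 = 4 ∧
      ∃ R : (base (((-9 * W.c₄ : ℤ) : ℤ) : ZMod r) (((-27 * W.c₆ : ℤ) : ℤ) : ZMod r)).toAffine.Point,
        R ≠ 0 ∧ 5 • R = 0 := by
  haveI : Fact (Nat.Prime 5) := ⟨Nat.prime_five⟩
  obtain ⟨r, hr, hrS, hr3, hr5, hmod3, hmod5, -, hap⟩ :=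
    exists_prime_dvd_apOfModel W hΔ 5 hss (by norm_num) (by norm_num) (S₀ ∪ {2})
  haveI hrF : Fact r.Prime := ⟨hr⟩
  have hr2 : r ≠ 2 := by
    rintro rfl
    exact hrS (Finset.mem_union_right _ (by simp))
  refine ⟨r, hrF, fun h => hrS (Finset.mem_union_left _ h), hmod3, ?_, ?_⟩
  · have h4 : ((r : ℕ) : ZMod 5) = ((4 : ℕ) : ZMod 5) := by
      rw [hmod5]; rfl
    have := (ZMod.natCast_eq_natCast_iff' r 4 5).mp h4
    simpa using this
  · obtain ⟨R', hR'⟩ := exists_point_addOrderOf_eq W 5 r hmod5 hap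
    have h2 : (2 : ZMod r) ≠ 0 := by
      intro h
      have h' : ((2 : ℕ) : ZMod r) = 0 := by exact_mod_cast h
      rw [ZMod.natCast_eq_zero_iff] at h'
      exact hr2 ((Nat.prime_dvd_prime_iff_eq hr Nat.prime_two).mp h')
    have h3 : (3 : ZMod r) ≠ 0 := by
      intro h
      have h' : ((3 : ℕ) : ZMod r) = 0 := by exact_mod_cast h
      rw [ZMod.natCast_eq_zero_iff] at h'
      exact hr3 ((Nat.prime_dvd_prime_iff_eq hr Nat.prime_three).mp h')
    obtain ⟨C, hC⟩ := exists_vc_base h2 h3 (W.reductionMod r)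
    have hc₄ : (W.reductionMod r).c₄ = ((W.c₄ : ℤ) : ZMod r) := by
      rw [WeierstrassCurve.reductionMod, WeierstrassCurve.map_c₄]; rfl
    have hc₆ : (W.reductionMod r).c₆ = ((W.c₆ : ℤ) : ZMod r) := by
      rw [WeierstrassCurve.reductionMod, WeierstrassCurve.map_c₆]; rfl
    have hC' : C • (W.reductionMod r) =
        base (((-9 * W.c₄ : ℤ) : ℤ) : ZMod r) (((-27 * W.c₆ : ℤ) : ℤ) : ZMod r) := by
      rw [hC, hc₄, hc₆]
      push_cast
      rfl
    set e := Fermat.Agent.S51lib.vcEquiv' (W.reductionMod r) C hC' with he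
    refine ⟨e.symm R', ?_, ?_⟩
    · intro h0
      have hR0 : R' = 0 := by
        have := congrArg e h0
        simpa using this
      rw [hR0, addOrderOf_zero] at hR'
      norm_num at hR'
    · rw [← map_nsmul, ← hR', addOrderOf_nsmul_eq_zero, map_zero]

end Fermat.Agent.S52lib.Glue
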