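/-
S52, Glue block (helper2): `Glue.redFiveStatement : RedFiveStatement` (adapter of `Glue.redFive`
to the Prop of helper4's `S52lib/Main`).
-/
import Fermat.Agent.S52lib.Main
import Fermat.Agent.S52lib.Glue.RedFive

set_option autoImplicit false

namespace Fermat.Agent.S52lib.Glue

/-- **K7.** -/
theorem redFiveStatement : Fermat.Agent.S52lib.RedFiveStatement :=
  fun W hΔ hss S₀ => redFive W hΔ hss S₀

end Fermat.Agent.S52lib.Glue
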